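import Fermat.Agent.S55.Local.Spec
import Fermat.Prelude.Thm_Algebra_finite_maximalSpectrum_and_bijective_localization_of_module_finite

/-!
# S55, layer L, piece LF0 (helper239): the ring of integers of a local field

`A` complete DVR with fraction field `F` (char 0), `L / F` finite.  With the `A`-algebra structure
on `L` given by `toL A F L`, the integral closure `B` of `A` in `L` is a local Dedekind domain,
finite over `A`, with fraction field `L`; hence a discrete valuation ring.

Main results:
* `isLocalRing_of_finite_of_isDomain` : a domain finite over a complete Noetherian local ring is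
  local;
* `intRing_structure` : `integralClosure A L` is finite over `A`, has fraction field `L`, is local
  and is a DVR.
-/

set_option autoImplicit false
set_option linter.unusedSectionVars false
set_option linter.style.haveILetI false

namespace Fermat.Agent.S55.Local.H239

open Fermat.Agent.S55.Local

/-- A domain which is module-finite over a complete Noetherian local ring is local. -/
theorem isLocalRing_of_finite_of_isDomain (𝒪 : Type) [CommRing 𝒪] [IsLocalRing 𝒪]
    [IsNoetherianRing 𝒪] [IsAdicComplete (IsLocalRing.maximalIdeal 𝒪) 𝒪]
    (B : Type) [CommRing B] [IsDomain B] [Algebra 𝒪 B] [Module.Finite 𝒪 B] :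
    IsLocalRing B := by
  obtain ⟨-, hbij, -, -⟩ :=
    Algebra.finite_maximalSpectrum_and_bijective_localization_of_module_finite (𝒪 := 𝒪) B
  -- two distinct maximal ideals give zero divisors
  have huniq : ∀ I J : MaximalSpectrum B, I = J := by
    intro I J
    by_contra hIJ
    classical
    obtain ⟨a, ha⟩ := hbij.2 (Pi.single I 1)
    obtain ⟨b, hb⟩ := hbij.2 (Pi.single J 1)
    have hab : a * b = 0 := by
      apply hbij.1
      rw [map_mul, ha, hb, map_zero]
      funext K
      by_cases hK : K = I
      · subst hK
        simp [hIJ]
      · simp [hK]
    rcases mul_eq_zero.mp hab with h | h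
    · rw [h, map_zero] at ha
      have := congrFun ha I
      simp at this
    · rw [h, map_zero] at hb
      have := congrFun hb J
      simp at this
  obtain ⟨m, hm⟩ := Ideal.exists_maximal B
  refine IsLocalRing.of_unique_max_ideal ⟨m, hm, fun J hJ => ?_⟩
  have := huniq ⟨J, hJ⟩ ⟨m, hm⟩
  exact congrArg MaximalSpectrum.asIdeal this

section Base

variable (A F : Type) [CommRing A] [IsDomain A] [IsDiscreteValuationRing A]
  [IsAdicComplete (IsLocalRing.maximalIdeal A) A]
  [Field F] [CharZero F] [Algebra A F] [IsFractionRing A F]
  (L : Type) [Field L] [Algebra F L] [FiniteDimensional F L]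

/-- The `A`-algebra structure on `L` through `F`. -/
@[reducible] def algAL : Algebra A L := (toL A F L).toAlgebra

lemma scalarTower_AFL : letI := algAL A F L; IsScalarTower A F L :=
  letI := algAL A F L
  IsScalarTower.of_algebraMap_eq (fun _ => rfl)

lemma isInt_iff_isIntegral (x : L) :
    letI := algAL A F L
    IsInt A F L x ↔ IsIntegral A x := Iff.rfl

/-- **LF0**: structure of the ring of integers `integralClosure A L` of a local field. -/
theorem intRing_structure :
    letI := algAL A F L
    Module.Finite A (integralClosure A L) ∧ IsFractionRing (integralClosure A L) L ∧
      IsLocalRing (integralClosure A L) ∧ IsDiscreteValuationRing (integralClosure A L) := by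
  letI := algAL A F L
  haveI := scalarTower_AFL A F L
  haveI hfin : Module.Finite A (integralClosure A L) :=
    IsIntegralClosure.finite A F L (integralClosure A L)
  haveI hfr : IsFractionRing (integralClosure A L) L :=
    IsIntegralClosure.isFractionRing_of_finite_extension A F L (integralClosure A L)
  haveI hded : IsDedekindDomain (integralClosure A L) :=
    IsIntegralClosure.isDedekindDomain A F L (integralClosure A L)
  haveI hloc : IsLocalRing (integralClosure A L) :=
    isLocalRing_of_finite_of_isDomain A (integralClosure A L)
  have hnf : ¬ IsField (integralClosure A L) := by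
    intro hB
    have hinj : Function.Injective (algebraMap A (integralClosure A L)) := by
      have h1 : Function.Injective (algebraMap A L) :=
        (algebraMap F L).injective.comp (IsFractionRing.injective A F)
      intro x y hxy
      apply h1
      have := congrArg (algebraMap (integralClosure A L) L) hxy
      simpa [← IsScalarTower.algebraMap_apply] using this
    haveI : Algebra.IsIntegral A (integralClosure A L) := inferInstance
    exact IsDiscreteValuationRing.not_isField A (isField_of_isIntegral_of_isField hinj hB)
  refine ⟨hfin, hfr, hloc, ?_⟩
  exact ((IsDiscreteValuationRing.TFAE (integralClosure A L) hnf).out 0 2).mpr hded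

end Base

end Fermat.Agent.S55.Local.H239
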