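import Fermat.Agent.S55.Local.H239.LF0

/-!
# S55, layer L, pieces LF1, LF2, LF3, LF4, LF8 (helper239)

Exact `Local/Spec.lean` shapes (all sorry-free, self-contained on top of `H239/LF0.lean`):
* `intOrInv : IntOrInvStatement`            (LF1)
* `existsUnif : ExistsUnifStatement`        (LF2)
* `intUnitsComap : IntUnitsComapStatement`  (LF3)
* `galoisInv : GaloisInvStatement`          (LF4)
* `normUnitsInt : NormUnitsIntStatement`    (LF8)

Reusable helpers: `toL_eq_comp`, `isInt_algebraMap_iff`, `isInt_algHom`, `isInt_algEquiv`,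
`isInt_pow`, `isInt_prod`, `smul_mem_intUnits`, `coe_unit_mem_intUnits`,
`exists_unif_irreducible` (uniformizer = irreducible element of `integralClosure A L`).
-/

set_option autoImplicit false
set_option linter.unusedSectionVars false
set_option linter.style.haveILetI false

namespace Fermat.Agent.S55.Local.H239

open Fermat.Agent.S55.Local

/-- **LF1**: the integers of a local field form a valuation ring. -/
theorem intOrInv : IntOrInvStatement := by
  intro A F _ _ _ _ _ _ _ _ _ L _ _ _ x
  letI := algAL A F L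
  obtain ⟨-, hfr, -, hdvr⟩ := intRing_structure A F L
  haveI := hfr
  haveI := hdvr
  rcases ValuationRing.isInteger_or_isInteger (integralClosure A L) x with ⟨b, hb⟩ | ⟨b, hb⟩
  · left
    rw [← hb]
    exact b.2
  · right
    rw [← hb]
    exact b.2

section Transport

variable (A F : Type) [CommRing A] [Field F] [Algebra A F]
  (K : Type) [Field K] [Algebra F K]
  (L : Type) [Field L] [Algebra F L] [Algebra K L] [IsScalarTower F K L]

lemma toL_eq_comp : toL A F L = (algebraMap K L).comp (toL A F K) := by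
  ext a
  simp [toL_apply, ← IsScalarTower.algebraMap_apply]

/-- Integrality is intrinsic: `y : K` is integral iff its image in `L` is. -/
lemma isInt_algebraMap_iff (y : K) : IsInt A F L (algebraMap K L y) ↔ IsInt A F K y := by
  unfold IsInt RingHom.IsIntegralElem
  constructor
  · rintro ⟨p, hp, h⟩
    refine ⟨p, hp, ?_⟩
    rw [toL_eq_comp A F K L, ← Polynomial.hom_eval₂] at h
    exact (algebraMap K L).injective (by simpa using h)
  · rintro ⟨p, hp, h⟩
    refine ⟨p, hp, ?_⟩
    rw [toL_eq_comp A F K L, ← Polynomial.hom_eval₂, h, map_zero]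

/-- `K`-algebra endomorphisms preserve integrality. -/
lemma isInt_algHom (σ : L →ₐ[K] L) {x : L} (hx : IsInt A F L x) : IsInt A F L (σ x) := by
  obtain ⟨p, hp, h⟩ := hx
  refine ⟨p, hp, ?_⟩
  have hσ : (σ : L →+* L).comp (toL A F L) = toL A F L := by
    ext a
    simp only [RingHom.coe_comp, Function.comp_apply, toL_apply, RingHom.coe_coe]
    rw [IsScalarTower.algebraMap_apply F K L, AlgHom.commutes]
  have := Polynomial.hom_eval₂ p (toL A F L) (σ : L →+* L) x
  rw [hσ, h, map_zero] at this
  exact this.symm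

lemma isInt_algEquiv (σ : L ≃ₐ[K] L) {x : L} (hx : IsInt A F L x) : IsInt A F L (σ x) :=
  isInt_algHom A F K L (σ : L →ₐ[K] L) hx

lemma isInt_pow {x : L} (hx : IsInt A F L x) (n : ℕ) : IsInt A F L (x ^ n) := by
  induction n with
  | zero => simpa using isInt_one A F L
  | succ n ih => rw [pow_succ]; exact ih.mul hx

lemma isInt_prod {ι : Type} (s : Finset ι) (f : ι → L) (h : ∀ i ∈ s, IsInt A F L (f i)) :
    IsInt A F L (∏ i ∈ s, f i) := by
  classical
  induction s using Finset.induction_on with
  | empty => simpa using isInt_one A F L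
  | insert a s ha ih =>
    rw [Finset.prod_insert ha]
    exact (h a (Finset.mem_insert_self a s)).mul
      (ih fun i hi => h i (Finset.mem_insert_of_mem hi))

/-- smul of Galois group on units preserves the integral units. -/
lemma smul_mem_intUnits (σ : L ≃ₐ[K] L) {x : Lˣ} (hx : x ∈ intUnits A F L) :
    σ • x ∈ intUnits A F L := by
  refine ⟨?_, ?_⟩
  · have : ((σ • x : Lˣ) : L) = σ (x : L) := rfl
    rw [this]
    exact isInt_algEquiv A F K L σ hx.1
  · have : (((σ • x)⁻¹ : Lˣ) : L) = σ ((x⁻¹ : Lˣ) : L) := by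
      rw [← smul_inv']
      rfl
    rw [this]
    exact isInt_algEquiv A F K L σ hx.2

/-- An integral element `z` whose "`σ`-norm" is `1` is an integral unit. -/
lemma mem_intUnits_of_prod_eq_one (σ : L ≃ₐ[K] L) (n : ℕ) (z : Lˣ)
    (hprod : ∏ i ∈ Finset.range (n + 1), (σ ^ i) • z = 1) (hz : IsInt A F L (z : L)) :
    z ∈ intUnits A F L := by
  refine ⟨hz, ?_⟩
  rw [Finset.prod_range_succ', pow_zero, one_smul] at hprod
  have hinv : z⁻¹ = ∏ i ∈ Finset.range n, (σ ^ (i + 1)) • z :=
    inv_eq_of_mul_eq_one_left hprod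
  rw [hinv, Units.coe_prod]
  refine isInt_prod A F L _ _ fun i _ => ?_
  exact isInt_algEquiv A F K L (σ ^ (i + 1)) hz

end Transport

/-- **LF3**: `U_L ∩ Kˣ = U_K`. -/
theorem intUnitsComap : IntUnitsComapStatement := by
  intro A F _ _ _ _ _ _ _ _ _ K _ _ _ L _ _ _ _ _ y
  rw [mem_intUnits, mem_intUnits]
  have h1 : ((unitsIncl L K y : Lˣ) : L) = algebraMap K L (y : K) := rfl
  have h2 : (((unitsIncl L K y)⁻¹ : Lˣ) : L) = algebraMap K L ((y⁻¹ : Kˣ) : K) := by
    rw [← map_inv]; rfl
  rw [h1, h2, isInt_algebraMap_iff, isInt_algebraMap_iff]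

/-- **LF8**: norms of integral units are integral units. -/
theorem normUnitsInt : NormUnitsIntStatement := by
  intro A F _ _ _ _ _ _ _ _ _ K _ _ _ L _ _ _ _ _ x hx
  letI := algAL A F L
  letI := algAL A F K
  haveI : IsScalarTower A K L := IsScalarTower.of_algebraMap_eq (fun a => by
    change toL A F L a = algebraMap K L (toL A F K a)
    rw [toL_eq_comp A F K L]; rfl)
  refine ⟨?_, ?_⟩
  · have : ((normUnits L K x : Kˣ) : K) = Algebra.norm K (x : L) := rfl
    rw [this]
    exact Algebra.isIntegral_norm K (R := A) hx.1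
  · have : (((normUnits L K x)⁻¹ : Kˣ) : K) = Algebra.norm K ((x⁻¹ : Lˣ) : L) := by
      rw [← map_inv]; rfl
    rw [this]
    exact Algebra.isIntegral_norm K (R := A) hx.2

/-- **LF4**: automorphisms preserve the valuation. -/
theorem galoisInv_of (h1 : IntOrInvStatement) : GaloisInvStatement := by
  intro A F _ _ _ _ _ _ _ _ _ K _ _ _ L _ _ _ _ _ σ x
  haveI : FiniteDimensional F L := FiniteDimensional.trans F K L
  -- the order of `σ`
  obtain ⟨n, hn⟩ : ∃ n : ℕ, σ ^ (n + 1) = 1 := by
    have hpos := orderOf_pos σ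
    exact ⟨orderOf σ - 1, by rw [Nat.sub_add_cancel hpos, pow_orderOf_eq_one]⟩
  set y : Lˣ := σ • x / x with hy
  have hsmul : ∀ i : ℕ, (σ ^ i) • y = (σ ^ (i + 1)) • x / (σ ^ i) • x := by
    intro i
    rw [hy, smul_div', ← mul_smul, ← pow_succ]
  have hprod : ∏ i ∈ Finset.range (n + 1), (σ ^ i) • y = 1 := by
    simp_rw [hsmul]
    rw [Finset.prod_range_div (fun i => (σ ^ i) • x), hn, pow_zero, one_smul, div_self']
  have hprod' : ∏ i ∈ Finset.range (n + 1), (σ ^ i) • y⁻¹ = 1 := by
    simp_rw [smul_inv']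
    rw [Finset.prod_inv_distrib, hprod, inv_one]
  rcases h1 A F L (y : L) with hint | hint
  · exact mem_intUnits_of_prod_eq_one A F K L σ n y hprod hint
  · have : y⁻¹ ∈ intUnits A F L := by
      refine mem_intUnits_of_prod_eq_one A F K L σ n y⁻¹ hprod' ?_
      rwa [Units.val_inv_eq_inv_val]
    simpa using (intUnits A F L).inv_mem this

/-- **LF4** (closed form). -/
theorem galoisInv : GaloisInvStatement := galoisInv_of intOrInv

section Unif

variable (A F : Type) [CommRing A] [IsDomain A] [IsDiscreteValuationRing A]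
  [IsAdicComplete (IsLocalRing.maximalIdeal A) A]
  [Field F] [CharZero F] [Algebra A F] [IsFractionRing A F]
  (L : Type) [Field L] [Algebra F L] [FiniteDimensional F L]

/-- A unit of the ring of integers gives an element of `intUnits`. -/
lemma coe_unit_mem_intUnits :
    letI := algAL A F L
    ∀ (u : (integralClosure A L)ˣ) (x : Lˣ), (x : L) = ((u : integralClosure A L) : L) →
      x ∈ intUnits A F L := by
  letI := algAL A F L
  intro u x hx
  refine ⟨by rw [hx]; exact (u : integralClosure A L).2, ?_⟩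
  have : ((x⁻¹ : Lˣ) : L) = (((u⁻¹ : (integralClosure A L)ˣ) : integralClosure A L) : L) := by
    rw [Units.val_inv_eq_inv_val, hx]
    have h := congrArg (Subtype.val) (Units.mul_inv u)
    simp only [MulMemClass.coe_mul, OneMemClass.coe_one] at h
    exact inv_eq_of_mul_eq_one_right h
  rw [this]
  exact ((u⁻¹ : (integralClosure A L)ˣ) : integralClosure A L).2

/-- **LF2** with extra information: a uniformizer coming from an irreducible element of the ring
of integers. -/
theorem exists_unif_irreducible :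
    letI := algAL A F L
    ∃ (ϖ₀ : integralClosure A L) (ϖ : Lˣ), Irreducible ϖ₀ ∧ (ϖ : L) = (ϖ₀ : L) ∧
      IsUnif A F L ϖ := by
  letI := algAL A F L
  obtain ⟨-, hfr, hloc, hdvr⟩ := intRing_structure A F L
  haveI := hfr
  haveI := hloc
  haveI := hdvr
  obtain ⟨ϖ₀, hirr⟩ := IsDiscreteValuationRing.exists_irreducible (integralClosure A L)
  have hne : (ϖ₀ : L) ≠ 0 := by
    intro h
    exact hirr.ne_zero (Subtype.ext h)
  refine ⟨ϖ₀, Units.mk0 (ϖ₀ : L) hne, hirr, rfl, ϖ₀.2, ?_, ?_⟩
  · -- not a unit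
    rintro ⟨-, hinv⟩
    apply hirr.not_isUnit
    refine IsUnit.of_mul_eq_one ⟨((Units.mk0 (ϖ₀ : L) hne)⁻¹ : Lˣ), hinv⟩ ?_
    apply Subtype.ext
    simp [mul_inv_cancel₀ hne]
  · intro x
    obtain ⟨b, c, hc, hbc⟩ := IsFractionRing.div_surjective (A := integralClosure A L) (x : L)
    have hc0 : c ≠ 0 := nonZeroDivisors.ne_zero hc
    have hb0 : b ≠ 0 := by
      rintro rfl
      rw [map_zero, zero_div] at hbc
      exact x.ne_zero hbc.symm
    obtain ⟨m, u, hu⟩ := IsDiscreteValuationRing.eq_unit_mul_pow_irreducible hb0 hirr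
    obtain ⟨k, v, hv⟩ := IsDiscreteValuationRing.eq_unit_mul_pow_irreducible hc0 hirr
    refine ⟨(m : ℤ) - k, ?_⟩
    have hcL : ((c : integralClosure A L) : L) ≠ 0 := fun h => hc0 (Subtype.ext h)
    have hvL : (((v : integralClosure A L)) : L) ≠ 0 := by
      intro h
      exact v.ne_zero (Subtype.ext h)
    have key : ((x * Units.mk0 (ϖ₀ : L) hne ^ (-((m : ℤ) - k)) : Lˣ) : L) =
        (((u * v⁻¹ : (integralClosure A L)ˣ) : integralClosure A L) : L) := by
      have hb' : (b : L) = (u : integralClosure A L) * (ϖ₀ : L) ^ m := by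
        rw [hu]; simp
      have hc' : (c : L) = (v : integralClosure A L) * (ϖ₀ : L) ^ k := by
        rw [hv]; simp
      have hvinv : (((v⁻¹ : (integralClosure A L)ˣ) : integralClosure A L) : L) =
          ((v : integralClosure A L) : L)⁻¹ := by
        have h := congrArg (Subtype.val) (Units.mul_inv v)
        simp only [MulMemClass.coe_mul, OneMemClass.coe_one] at h
        exact (inv_eq_of_mul_eq_one_right h).symm
      have hx : (x : L) = (b : L) / (c : L) := hbc.symm
      simp only [Units.val_mul, Units.val_zpow_eq_zpow_val, Units.val_mk0, MulMemClass.coe_mul]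
      rw [hvinv, hx, hb', hc', neg_sub, zpow_sub₀ hne, zpow_natCast, zpow_natCast]
      field_simp
    exact coe_unit_mem_intUnits A F L (u * v⁻¹) _ key

end Unif

/-- **LF2**: existence of a uniformizer. -/
theorem existsUnif : ExistsUnifStatement := by
  intro A F _ _ _ _ _ _ _ _ _ L _ _ _
  obtain ⟨-, ϖ, -, -, h⟩ := exists_unif_irreducible A F L
  exact ⟨ϖ, h⟩

end Fermat.Agent.S55.Local.H239
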